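import Mathlib.NumberTheory.ModularForms.QExpansion
import Mathlib.NumberTheory.ModularForms.CuspFormSubmodule
import Mathlib.NumberTheory.ModularForms.CongruenceSubgroups
import Fermat.Prelude.Thm_ModularForm_sturm_bound_Gamma0

/-!
Vanishing of weight two cusp forms on `Γ₀(N)` for `N ≤ 2`, from the Sturm bound.
-/

set_option autoImplicit false

namespace Fermat.Agent.LowLevel

open UpperHalfPlane ModularForm
open scoped MatrixGroups

theorem index_Gamma0_le (N : ℕ) [NeZero N] : (CongruenceSubgroup.Gamma0 N).index ≤ N ^ 2 := by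
  classical
  let φ : (SL(2, ℤ) ⧸ CongruenceSubgroup.Gamma0 N) → ZMod N × ZMod N := fun q =>
    (((q.out⁻¹ : SL(2, ℤ)) 1 0 : ZMod N), ((q.out⁻¹ : SL(2, ℤ)) 1 1 : ZMod N))
  have hφ : Function.Injective φ := by
    intro q q' h
    have h1 : (((q.out⁻¹ : SL(2, ℤ)) 1 0 : ℤ) : ZMod N) = (((q'.out⁻¹ : SL(2, ℤ)) 1 0 : ℤ) : ZMod N) :=
      congrArg Prod.fst h
    have h2 : (((q.out⁻¹ : SL(2, ℤ)) 1 1 : ℤ) : ZMod N) = (((q'.out⁻¹ : SL(2, ℤ)) 1 1 : ℤ) : ZMod N) :=
      congrArg Prod.snd h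
    rw [← QuotientGroup.out_eq' q, ← QuotientGroup.out_eq' q', QuotientGroup.eq,
      CongruenceSubgroup.Gamma0_mem]
    rw [Matrix.SpecialLinearGroup.SL2_inv_expl] at h1 h2 ⊢
    rw [Matrix.SpecialLinearGroup.SL2_inv_expl] at h1 h2
    simp [Matrix.mul_apply, Fin.sum_univ_two] at h1 h2 ⊢
    rw [h1, h2]; ring
  have := Nat.card_le_card_of_injective φ hφ
  rw [Subgroup.index]
  refine this.trans ?_
  simp [sq]

theorem qExpansion_coeff_zero_cuspForm (N : ℕ) [NeZero N] {k : ℤ}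
    (f : CuspForm (CongruenceSubgroup.Gamma0 N) k) :
    (qExpansion 1 f).coeff 0 = 0 := by
  have h1 : (1 : ℝ) ∈ (CongruenceSubgroup.Gamma0 N : Subgroup (GL (Fin 2) ℝ)).strictPeriods := by
    simp [CongruenceSubgroup.strictPeriods_Gamma0]
  exact CuspFormClass.qExpansion_coeff_zero f one_pos h1

theorem cuspForm_eq_zero_of_index_lt (N : ℕ) [NeZero N] (k : ℤ)
    (hk : (k * (CongruenceSubgroup.Gamma0 N).index).toNat < 12)
    (f : CuspForm (CongruenceSubgroup.Gamma0 N) k) : f = 0 := by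
  have key : (CuspForm.toModularFormₗ f : ModularForm (CongruenceSubgroup.Gamma0 N) k) = 0 := by
    refine ModularForm.sturm_bound_Gamma0 N _ fun n hn => ?_
    rw [Nat.div_eq_of_lt hk] at hn
    obtain rfl : n = 0 := by omega
    exact qExpansion_coeff_zero_cuspForm N f
  exact CuspForm.toModularFormₗ_injective (key.trans (map_zero _).symm)

theorem S2_Gamma0_eq_zero_of_le_two (N : ℕ) [NeZero N] (hN : N ≤ 2)
    (f : CuspForm (CongruenceSubgroup.Gamma0 N) 2) : f = 0 := by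
  refine cuspForm_eq_zero_of_index_lt N 2 ?_ f
  have h := index_Gamma0_le N
  have h4 : N ^ 2 ≤ 4 := by nlinarith
  omega

end Fermat.Agent.LowLevel
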